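import Fermat.Agent.Lib.Cheb.H476.FrobeniusDivision
import Fermat.Prelude.Def_GaloisRep_Adic

/-!
# CHEB Tier 1: client forms of the Frobenius division theorem

All statements are unconditional (they use `H476.frobeniusDivision`).

* `exists_frobenius_division_mem` : open subgroups `U` of `Gal(ℚ̄/ℚ)`.
* `exists_frobenius_division_map` : homomorphisms `ρ` to a monoid which factor through a finite
  level (Prelude's `GaloisFactorsThroughFiniteLevel`): `ρ τ = ρ σ ^ k`, `ρ σ = ρ τ ^ j`, and `ρ` is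
  trivial on the inertia group at `A`.
* `exists_frobenius_division_map₂` : the same for two homomorphisms simultaneously.
* `exists_frobenius_division_adic` : adically continuous actions (Prelude's
  `GaloisActionIsAdicContinuous`), modulo `𝔪 ^ n`.
-/

set_option autoImplicit false

namespace Fermat.Agent.Lib.Cheb.H476

open Fermat.Agent.Lib.Cheb.Spec

/-- If `τ` and `σ` agree on `E` then `σ⁻¹ * τ` fixes `E` pointwise. -/
theorem inv_mul_apply_eq_of_agree (E : IntermediateField ℚ Qb) {τ σ : GQ}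
    (h : ∀ x ∈ E, τ x = σ x) : ∀ x ∈ E, (σ⁻¹ * τ) x = x := by
  intro x hx
  rw [AlgEquiv.mul_apply, h x hx]
  exact σ.symm_apply_apply x

/-- **Frobenius division, open subgroups.**  For every open subgroup `U` of `Gal(ℚ̄/ℚ)`, every
`σ` and every finite set `S` of primes there are `ℓ ∉ S`, a valuation subring `A` over `ℓ` with
inertia group contained in `U`, and a Frobenius element `τ` at `A` with `τ ∈ σ ^ k U` and
`τ ^ j ∈ σ U`. -/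
theorem exists_frobenius_division_mem (U : Subgroup GQ) (hU : IsOpen (U : Set GQ))
    (σ : GQ) (S : Finset ℕ) :
    ∃ (ℓ : ℕ) (A : ValuationSubring Qb) (τ : GQ) (k j : ℕ),
      ℓ.Prime ∧ ℓ ∉ S ∧ A.LiesOverPrime ℓ ∧ A.IsFrobeniusAt τ ℓ ∧
      A.inertiaSubgroupIn ℚ ≤ U ∧ (σ ^ k)⁻¹ * τ ∈ U ∧ σ⁻¹ * τ ^ j ∈ U := by
  have h1 : (U : Set GQ) ∈ nhds (1 : GQ) := hU.mem_nhds U.one_mem
  obtain ⟨E, hE, hEU⟩ := (krullTopology_mem_nhds_one_iff ℚ Qb _).mp h1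
  obtain ⟨ℓ, A, τ, k, j, hℓ, hℓS, hA, hτ, hin, hk, hj⟩ := frobeniusDivision E hE σ S
  refine ⟨ℓ, A, τ, k, j, hℓ, hℓS, hA, hτ, ?_, ?_, ?_⟩
  · intro ι hι
    apply hEU
    show ι ∈ E.fixingSubgroup
    rw [IntermediateField.mem_fixingSubgroup_iff]
    exact hin ι hι
  · apply hEU
    show (σ ^ k)⁻¹ * τ ∈ E.fixingSubgroup
    rw [IntermediateField.mem_fixingSubgroup_iff]
    exact inv_mul_apply_eq_of_agree E hk
  · apply hEU
    show σ⁻¹ * τ ^ j ∈ E.fixingSubgroup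
    rw [IntermediateField.mem_fixingSubgroup_iff]
    exact inv_mul_apply_eq_of_agree E hj

/-- **Frobenius division, homomorphisms factoring through a finite level.** -/
theorem exists_frobenius_division_map {M : Type} [Monoid M] (ρ : GQ →* M)
    (hρ : GaloisFactorsThroughFiniteLevel ρ) (σ : GQ) (S : Finset ℕ) :
    ∃ (ℓ : ℕ) (A : ValuationSubring Qb) (τ : GQ) (k j : ℕ),
      ℓ.Prime ∧ ℓ ∉ S ∧ A.LiesOverPrime ℓ ∧ A.IsFrobeniusAt τ ℓ ∧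
      (∀ ι ∈ A.inertiaSubgroupIn ℚ, ρ ι = 1) ∧ ρ τ = ρ σ ^ k ∧ ρ σ = ρ τ ^ j := by
  obtain ⟨E, hE, hρE⟩ := hρ
  obtain ⟨ℓ, A, τ, k, j, hℓ, hℓS, hA, hτ, hin, hk, hj⟩ := frobeniusDivision E hE σ S
  refine ⟨ℓ, A, τ, k, j, hℓ, hℓS, hA, hτ, fun ι hι => hρE ι (hin ι hι), ?_, ?_⟩
  · have h1 := hρE _ (inv_mul_apply_eq_of_agree E hk)
    have h2 : ρ τ = ρ (σ ^ k) * ρ ((σ ^ k)⁻¹ * τ) := by
      rw [← map_mul, mul_inv_cancel_left]
    rw [h2, h1, mul_one, map_pow]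
  · have h1 := hρE _ (inv_mul_apply_eq_of_agree E hj)
    have h2 : ρ (τ ^ j) = ρ σ * ρ (σ⁻¹ * τ ^ j) := by
      rw [← map_mul, mul_inv_cancel_left]
    rw [h1, mul_one, map_pow] at h2
    exact h2.symm

/-- The product of two homomorphisms factoring through finite levels factors through a finite
level. -/
theorem galoisFactorsThroughFiniteLevel_prod {M₁ M₂ : Type} [Monoid M₁] [Monoid M₂]
    (ρ₁ : GQ →* M₁) (ρ₂ : GQ →* M₂) (h₁ : GaloisFactorsThroughFiniteLevel ρ₁)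
    (h₂ : GaloisFactorsThroughFiniteLevel ρ₂) :
    GaloisFactorsThroughFiniteLevel (ρ₁.prod ρ₂) := by
  obtain ⟨E₁, hE₁, hρ₁⟩ := h₁
  obtain ⟨E₂, hE₂, hρ₂⟩ := h₂
  haveI := hE₁
  haveI := hE₂
  refine ⟨E₁ ⊔ E₂, inferInstance, fun σ hσ => ?_⟩
  have h1 : ρ₁ σ = 1 := hρ₁ σ fun x hx => hσ x ((le_sup_left : E₁ ≤ E₁ ⊔ E₂) hx)
  have h2 : ρ₂ σ = 1 := hρ₂ σ fun x hx => hσ x ((le_sup_right : E₂ ≤ E₁ ⊔ E₂) hx)
  rw [MonoidHom.prod_apply, h1, h2]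
  rfl

/-- **Frobenius division, two homomorphisms simultaneously.** -/
theorem exists_frobenius_division_map₂ {M₁ M₂ : Type} [Monoid M₁] [Monoid M₂]
    (ρ₁ : GQ →* M₁) (ρ₂ : GQ →* M₂) (h₁ : GaloisFactorsThroughFiniteLevel ρ₁)
    (h₂ : GaloisFactorsThroughFiniteLevel ρ₂) (σ : GQ) (S : Finset ℕ) :
    ∃ (ℓ : ℕ) (A : ValuationSubring Qb) (τ : GQ) (k j : ℕ),
      ℓ.Prime ∧ ℓ ∉ S ∧ A.LiesOverPrime ℓ ∧ A.IsFrobeniusAt τ ℓ ∧
      (∀ ι ∈ A.inertiaSubgroupIn ℚ, ρ₁ ι = 1 ∧ ρ₂ ι = 1) ∧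
      (ρ₁ τ = ρ₁ σ ^ k ∧ ρ₁ σ = ρ₁ τ ^ j) ∧ (ρ₂ τ = ρ₂ σ ^ k ∧ ρ₂ σ = ρ₂ τ ^ j) := by
  obtain ⟨ℓ, A, τ, k, j, hℓ, hℓS, hA, hτ, hin, hk, hj⟩ :=
    exists_frobenius_division_map (ρ₁.prod ρ₂)
      (galoisFactorsThroughFiniteLevel_prod ρ₁ ρ₂ h₁ h₂) σ S
  simp only [MonoidHom.prod_apply, Prod.pow_mk, Prod.mk.injEq] at hk hj
  refine ⟨ℓ, A, τ, k, j, hℓ, hℓS, hA, hτ, fun ι hι => ?_, ⟨hk.1, hj.1⟩, ⟨hk.2, hj.2⟩⟩
  have := hin ι hι
  rw [MonoidHom.prod_apply] at this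
  exact ⟨congrArg Prod.fst this, congrArg Prod.snd this⟩

/-- **Frobenius division, adically continuous actions.**  Modulo `𝔪 ^ n`. -/
theorem exists_frobenius_division_adic (R : Type) [CommRing R] [IsLocalRing R]
    {V : Type} [AddCommGroup V] [Module R V] (ρ : GQ →* Module.End R V)
    (hρ : GaloisActionIsAdicContinuous R ρ) (n : ℕ) (σ : GQ) (S : Finset ℕ) :
    ∃ (ℓ : ℕ) (A : ValuationSubring Qb) (τ : GQ) (k j : ℕ),
      ℓ.Prime ∧ ℓ ∉ S ∧ A.LiesOverPrime ℓ ∧ A.IsFrobeniusAt τ ℓ ∧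
      (∀ ι ∈ A.inertiaSubgroupIn ℚ, ∀ v : V,
        ρ ι v - v ∈ (IsLocalRing.maximalIdeal R ^ n) • (⊤ : Submodule R V)) ∧
      (∀ v : V, ρ τ v - (ρ σ ^ k) v ∈ (IsLocalRing.maximalIdeal R ^ n) • (⊤ : Submodule R V)) ∧
      (∀ v : V, ρ σ v - (ρ τ ^ j) v ∈ (IsLocalRing.maximalIdeal R ^ n) • (⊤ : Submodule R V)) := by
  obtain ⟨E, hE, hρE⟩ := hρ n
  obtain ⟨ℓ, A, τ, k, j, hℓ, hℓS, hA, hτ, hin, hk, hj⟩ := frobeniusDivision E hE σ S
  have hmap : ∀ (f : Module.End R V) (w : V),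
      w ∈ (IsLocalRing.maximalIdeal R ^ n) • (⊤ : Submodule R V) →
      f w ∈ (IsLocalRing.maximalIdeal R ^ n) • (⊤ : Submodule R V) := by
    intro f w hw
    refine Submodule.smul_induction_on hw ?_ ?_
    · intro a ha v _
      rw [map_smul]
      exact Submodule.smul_mem_smul ha Submodule.mem_top
    · intro x y hx hy
      rw [map_add]
      exact Submodule.add_mem _ hx hy
  refine ⟨ℓ, A, τ, k, j, hℓ, hℓS, hA, hτ, fun ι hι => hρE ι (hin ι hι), ?_, ?_⟩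
  · intro v
    have h1 := hρE _ (inv_mul_apply_eq_of_agree E hk) v
    have h2 : ρ τ v - (ρ σ ^ k) v = ρ (σ ^ k) (ρ ((σ ^ k)⁻¹ * τ) v - v) := by
      rw [map_sub, ← Module.End.mul_apply, ← map_mul, mul_inv_cancel_left, map_pow]
    rw [h2]
    exact hmap _ _ h1
  · intro v
    have h1 := hρE _ (inv_mul_apply_eq_of_agree E hj) v
    have h2 : ρ σ v - (ρ τ ^ j) v = - (ρ σ (ρ (σ⁻¹ * τ ^ j) v - v)) := by
      rw [map_sub, ← Module.End.mul_apply, ← map_mul, mul_inv_cancel_left, map_pow, neg_sub]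
    rw [h2]
    exact Submodule.neg_mem _ (hmap _ _ h1)

end Fermat.Agent.Lib.Cheb.H476
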