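import Fermat.Agent.Lib.Cheb.FrobFinite
import Fermat.Agent.Lib.Cheb.H476.Bridge

/-!
# CHEB Tier 1, END: the Frobenius division theorem at Prelude level

`frobeniusDivision : Spec.FrobeniusDivisionStatement` — for every finite extension `E ⊆ ℚ̄` of `ℚ`,
every `σ ∈ Gal(ℚ̄/ℚ)` and every finite set `S` of primes there are a prime `ℓ ∉ S`, a valuation
subring `A` of `ℚ̄` over `ℓ` whose inertia group acts trivially on `E`, and a Frobenius element `τ`
at `A` such that `τ = σ ^ k` and `σ = τ ^ j` on `E`.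

Assembly: `H476.bridgeDivision` (F6) applied to `Cheb.frobFinite` (Z, B0, A, D, M).
-/

set_option autoImplicit false

namespace Fermat.Agent.Lib.Cheb.H476

open Fermat.Agent.Lib.Cheb.Spec

/-- **Frobenius division theorem**, Prelude level (Tier 1 of the shared library CHEB). -/
theorem frobeniusDivision : FrobeniusDivisionStatement :=
  bridgeDivision Fermat.Agent.Lib.Cheb.frobFinite

/-- Unfolded form of `frobeniusDivision`, convenient for clients. -/
theorem exists_frobenius_division (E : IntermediateField ℚ Qb) [FiniteDimensional ℚ E]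
    (σ : GQ) (S : Finset ℕ) :
    ∃ (ℓ : ℕ) (A : ValuationSubring Qb) (τ : GQ) (k j : ℕ),
      ℓ.Prime ∧ ℓ ∉ S ∧ A.LiesOverPrime ℓ ∧ A.IsFrobeniusAt τ ℓ ∧
      (∀ ι ∈ A.inertiaSubgroupIn ℚ, ∀ x ∈ E, ι x = x) ∧
      (∀ x ∈ E, τ x = (σ ^ k) x) ∧ (∀ x ∈ E, (τ ^ j) x = σ x) :=
  frobeniusDivision E inferInstance σ S

end Fermat.Agent.Lib.Cheb.H476
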