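import Fermat.Agent.Lib.Cheb.H476.Clients
import Fermat.Agent.Lib.Cheb.H476.FrobConj

/-!
# CHEB Tier 1, strong client forms

* `frobeniusDivision_strong` : as `frobeniusDivision`, but the inertia groups at ALL valuation
  subrings over `ℓ` act trivially on `E` (so that Prelude's `IsUnramifiedAt ℓ` follows).
* `exists_frobenius_division_map_strong` : homomorphisms factoring through a finite level.
* `isFrobeniusAt_apply_of_pow_eq_one` : a Frobenius element at `ℓ` raises roots of unity of order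
  prime to `ℓ` to the `ℓ`-th power.
* `dvd_sub_one_of_isFrobeniusAt_fixes` : if a Frobenius element at `ℓ ∤ m` fixes a primitive
  `m`-th root of unity, then `ℓ ≡ 1 mod m`.
-/

set_option autoImplicit false
set_option linter.style.haveILetI false

open scoped Pointwise

namespace Fermat.Agent.Lib.Cheb.H476

open Fermat.Agent.Lib.Cheb.Spec

/-- Elements of `Gal(ℚ̄/ℚ)` preserve normal intermediate fields. -/
theorem apply_mem_of_normal (L : IntermediateField ℚ Qb) [Normal ℚ L] (g : GQ) {x : Qb}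
    (hx : x ∈ L) : g x ∈ L := by
  have h := AlgEquiv.restrictNormal_commutes g L ⟨x, hx⟩
  have h2 : g x = ((AlgEquiv.restrictNormal g L ⟨x, hx⟩ : L) : Qb) := h.symm
  rw [h2]
  exact (AlgEquiv.restrictNormal g L ⟨x, hx⟩).2

/-- **Frobenius division, strong form**: the prime `ℓ` is unramified in `E` at every valuation
subring over `ℓ`. -/
theorem frobeniusDivision_strong (E : IntermediateField ℚ Qb) [FiniteDimensional ℚ E]
    (σ : GQ) (S : Finset ℕ) :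
    ∃ (ℓ : ℕ) (A : ValuationSubring Qb) (τ : GQ) (k j : ℕ),
      ℓ.Prime ∧ ℓ ∉ S ∧ A.LiesOverPrime ℓ ∧ A.IsFrobeniusAt τ ℓ ∧
      (∀ A' : ValuationSubring Qb, A'.LiesOverPrime ℓ →
        ∀ ι ∈ A'.inertiaSubgroupIn ℚ, ∀ x ∈ E, ι x = x) ∧
      (∀ x ∈ E, τ x = (σ ^ k) x) ∧ (∀ x ∈ E, (τ ^ j) x = σ x) := by
  haveI := numberField_normalClosure E
  haveI := isGalois_normalClosure E
  have hEL : E ≤ IntermediateField.normalClosure ℚ E Qb := IntermediateField.le_normalClosure E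
  obtain ⟨ℓ, A, τ, k, j, hℓ, hℓS, hA, hτ, hin, hk, hj⟩ :=
    frobeniusDivision (IntermediateField.normalClosure ℚ E Qb) inferInstance σ S
  refine ⟨ℓ, A, τ, k, j, hℓ, hℓS, hA, hτ, ?_, fun x hx => hk x (hEL hx),
    fun x hx => hj x (hEL hx)⟩
  intro A' hA' ι' hι' x hx
  obtain ⟨g, ι, hι, rfl⟩ := exists_conj_of_mem_inertia hℓ hA hA' hι'
  have h1 : g⁻¹ x ∈ IntermediateField.normalClosure ℚ E Qb :=
    apply_mem_of_normal _ g⁻¹ (hEL hx)
  rw [conj_apply, hin ι hι _ h1, apply_inv_apply]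

/-- **Frobenius division for homomorphisms, strong form**: `ρ` is trivial on the inertia groups
at all valuation subrings over `ℓ`. -/
theorem exists_frobenius_division_map_strong {M : Type} [Monoid M] (ρ : GQ →* M)
    (hρ : GaloisFactorsThroughFiniteLevel ρ) (σ : GQ) (S : Finset ℕ) :
    ∃ (ℓ : ℕ) (A : ValuationSubring Qb) (τ : GQ) (k j : ℕ),
      ℓ.Prime ∧ ℓ ∉ S ∧ A.LiesOverPrime ℓ ∧ A.IsFrobeniusAt τ ℓ ∧
      (∀ A' : ValuationSubring Qb, A'.LiesOverPrime ℓ →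
        ∀ ι ∈ A'.inertiaSubgroupIn ℚ, ρ ι = 1) ∧
      ρ τ = ρ σ ^ k ∧ ρ σ = ρ τ ^ j := by
  obtain ⟨E, hE, hρE⟩ := hρ
  haveI := hE
  obtain ⟨ℓ, A, τ, k, j, hℓ, hℓS, hA, hτ, hin, hk, hj⟩ := frobeniusDivision_strong E σ S
  refine ⟨ℓ, A, τ, k, j, hℓ, hℓS, hA, hτ, fun A' hA' ι hι => hρE ι (hin A' hA' ι hι), ?_, ?_⟩
  · have h1 := hρE _ (inv_mul_apply_eq_of_agree E hk)
    have h2 : ρ τ = ρ (σ ^ k) * ρ ((σ ^ k)⁻¹ * τ) := by
      rw [← map_mul, mul_inv_cancel_left]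
    rw [h2, h1, mul_one, map_pow]
  · have h1 := hρE _ (inv_mul_apply_eq_of_agree E hj)
    have h2 : ρ (τ ^ j) = ρ σ * ρ (σ⁻¹ * τ ^ j) := by
      rw [← map_mul, mul_inv_cancel_left]
    rw [h1, mul_one, map_pow] at h2
    exact h2.symm

/-! ### Frobenius elements and roots of unity -/

theorem mul_mem_nonunits_of_mem (A : ValuationSubring Qb) {x a : Qb} (hx : x ∈ A.nonunits)
    (ha : a ∈ A) : x * a ∈ A.nonunits := by
  rw [A.mem_nonunits_iff] at hx ⊢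
  rw [mul_comm, map_mul]
  exact mul_lt_of_le_one_of_lt ((A.valuation_le_one_iff a).mpr ha) hx

theorem one_notMem_nonunits (A : ValuationSubring Qb) : (1 : Qb) ∉ A.nonunits := by
  rw [A.mem_nonunits_iff, map_one]
  exact lt_irrefl _

theorem mem_of_pow_eq_one (A : ValuationSubring Qb) {m : ℕ} (hm : m ≠ 0) {η : Qb}
    (hη : η ^ m = 1) : η ∈ A := by
  apply Fermat.Agent.S54.isIntegral_mem_valuationSubring A
  exact IsIntegral.of_pow (Nat.pos_of_ne_zero hm) (hη ▸ isIntegral_one)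

/-- If `η ≠ 1` is an `m`-th root of unity with `η - 1` in the maximal ideal of `A`, then `m` lies
in the maximal ideal of `A`. -/
theorem natCast_mem_nonunits_of_root (A : ValuationSubring Qb) {m : ℕ} {η : Qb}
    (hη : η ^ m = 1) (hη1 : η ≠ 1) (h : η - 1 ∈ A.nonunits) : (m : Qb) ∈ A.nonunits := by
  rcases Nat.eq_zero_or_pos m with rfl | hm
  · rw [Nat.cast_zero]
    exact A.nonunits.zero_mem
  have hηA : η ∈ A := mem_of_pow_eq_one A hm.ne' hη
  have hsum : ∑ i ∈ Finset.range m, η ^ i = 0 := by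
    have h1 := mul_geom_sum η m
    rw [hη, sub_self] at h1
    rcases mul_eq_zero.mp h1 with h2 | h2
    · exact absurd (sub_eq_zero.mp h2) hη1
    · exact h2
  have hm' : (m : Qb) = ∑ i ∈ Finset.range m, (1 - η ^ i) := by
    rw [Finset.sum_sub_distrib, hsum, sub_zero, Finset.sum_const, Finset.card_range,
      nsmul_eq_mul, mul_one]
  rw [hm']
  refine sum_mem fun i _ => ?_
  have h2 : 1 - η ^ i = (η - 1) * (-(∑ j ∈ Finset.range i, η ^ j)) := by
    rw [mul_neg, mul_geom_sum]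
    ring
  rw [h2]
  exact mul_mem_nonunits_of_mem A h (A.neg_mem _ (sum_mem fun j _ => A.pow_mem hηA j))

/-- A Frobenius element at `ℓ` raises every root of unity of order prime to `ℓ` to the `ℓ`-th
power. -/
theorem isFrobeniusAt_apply_of_pow_eq_one {A : ValuationSubring Qb} {τ : GQ} {ℓ m : ℕ}
    (hℓ : ℓ.Prime) (hA : A.LiesOverPrime ℓ) (hτ : A.IsFrobeniusAt τ ℓ) (hm : ¬ ℓ ∣ m)
    {ζ : Qb} (hζ : ζ ^ m = 1) : τ ζ = ζ ^ ℓ := by
  have hm0 : m ≠ 0 := by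
    rintro rfl
    exact hm (dvd_zero ℓ)
  have hζA : ζ ∈ A := mem_of_pow_eq_one A hm0 hζ
  have hζ0 : ζ ≠ 0 := by
    rintro rfl
    rw [zero_pow hm0] at hζ
    exact zero_ne_one hζ
  have hFrob := ((isFrobeniusAt_iff A τ ℓ).mp hτ).2 ζ hζA
  by_contra hne
  -- the quotient `η = τ ζ / ζ ^ ℓ`
  have hη : (τ ζ * (ζ ^ ℓ)⁻¹) ^ m = 1 := by
    rw [mul_pow, ← map_pow, hζ, map_one, one_mul, inv_pow, ← pow_mul, mul_comm ℓ m, pow_mul, hζ,
      one_pow, inv_one]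
  have hη1 : τ ζ * (ζ ^ ℓ)⁻¹ ≠ 1 := by
    intro h
    apply hne
    have := congrArg (· * ζ ^ ℓ) h
    simpa [hζ0] using this
  have hinvA : (ζ ^ ℓ)⁻¹ ∈ A := by
    apply mem_of_pow_eq_one A hm0
    rw [inv_pow, ← pow_mul, mul_comm ℓ m, pow_mul, hζ, one_pow, inv_one]
  have hsub : τ ζ * (ζ ^ ℓ)⁻¹ - 1 ∈ A.nonunits := by
    have h1 : τ ζ * (ζ ^ ℓ)⁻¹ - 1 = (τ ζ - ζ ^ ℓ) * (ζ ^ ℓ)⁻¹ := by
      rw [sub_mul, mul_inv_cancel₀ (pow_ne_zero ℓ hζ0)]
    rw [h1]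
    exact mul_mem_nonunits_of_mem A hFrob hinvA
  have hmA := natCast_mem_nonunits_of_root A hη hη1 hsub
  -- Bezout
  have hcop : IsCoprime (ℓ : ℤ) (m : ℤ) :=
    Nat.isCoprime_iff_coprime.mpr ((Nat.Prime.coprime_iff_not_dvd hℓ).mpr hm)
  obtain ⟨a, b, hab⟩ := hcop
  have h1 : ((a : ℤ) : Qb) * (ℓ : Qb) + ((b : ℤ) : Qb) * (m : Qb) = 1 := by
    have := congrArg (fun z : ℤ => (z : Qb)) hab
    simpa using this
  have h2 : (1 : Qb) ∈ A.nonunits := by
    rw [← h1]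
    refine A.nonunits.add_mem ?_ ?_
    · rw [mul_comm]
      exact mul_mem_nonunits_of_mem A hA (intCast_mem A a)
    · rw [mul_comm]
      exact mul_mem_nonunits_of_mem A hmA (intCast_mem A b)
  exact one_notMem_nonunits A h2

/-- If a Frobenius element at `ℓ ∤ m` fixes a primitive `m`-th root of unity then
`ℓ ≡ 1 mod m`. -/
theorem dvd_sub_one_of_isFrobeniusAt_fixes {A : ValuationSubring Qb} {τ : GQ} {ℓ m : ℕ}
    (hℓ : ℓ.Prime) (hA : A.LiesOverPrime ℓ) (hτ : A.IsFrobeniusAt τ ℓ) (hm : ¬ ℓ ∣ m)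
    {ζ : Qb} (hζ : IsPrimitiveRoot ζ m) (hfix : τ ζ = ζ) : m ∣ ℓ - 1 := by
  have h1 := isFrobeniusAt_apply_of_pow_eq_one hℓ hA hτ hm hζ.pow_eq_one
  rw [hfix] at h1
  have hm0 : m ≠ 0 := by
    rintro rfl
    exact hm (dvd_zero ℓ)
  have hζ0 : ζ ≠ 0 := hζ.ne_zero hm0
  apply hζ.dvd_of_pow_eq_one
  have h2 : ζ ^ ℓ = ζ ^ (ℓ - 1) * ζ := by
    rw [← pow_succ, Nat.sub_add_cancel hℓ.one_le]
  rw [h2] at h1
  have h3 : ζ ^ (ℓ - 1) * ζ = 1 * ζ := by rw [one_mul]; exact h1.symm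
  exact mul_right_cancel₀ hζ0 h3

end Fermat.Agent.Lib.Cheb.H476
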